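import Fermat.Agent.BurgessGeneral.PrimitiveRoot

/-!
# Many primitive roots in short intervals

The counting form of inclusion and exclusion over the prime factors of `p - 1`: an interval of
length `N ≥ p ^ (1/4 + ε)` has at least `N p ^ (-ε)` primitive roots.
-/

set_option autoImplicit false

noncomputable section

namespace FA.PrimitiveRootSquare

open Finset Filter FA.FermatCount FA.BurgessGeneral
open scoped Topology

variable {p : ℕ} [Fact p.Prime]

open scoped Classical in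
theorem card_noPrimePower_ge {M N : ℕ} {E : ℝ} (hp : 4 ≤ p) (hN : 4 ≤ N) (hE0 : 0 ≤ E)
    (hE : ∀ χ : MulChar (ZMod p) ℂ, χ ≠ 1 → ‖windowSumC χ M N‖ ≤ E)
 :
    (N : ℝ) / 2 ≤ (2 : ℝ) ^ (p - 1).primeFactors.card *
      ((Ioc M (M + N)).filter fun n : ℕ => NoPrimePower (n : ZMod p)).card +
        (4 : ℝ) ^ (p - 1).primeFactors.card * E := by
  obtain ⟨Q, hQ⟩ : ∃ Q, Q = (p - 1).primeFactors := ⟨_, rfl⟩
  obtain ⟨A, hA⟩ : ∃ A, A = ((Ioc M (M + N)).filter fun n : ℕ => NoPrimePower (n : ZMod p)).card :=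
    ⟨_, rfl⟩
  rw [← hQ, ← hA]
  obtain ⟨c, hc⟩ : ∃ c : Finset ℕ → ℂ,
      c = fun T => (-1 : ℂ) ^ T.card / ((∏ q ∈ T, q : ℕ) : ℂ) := ⟨_, rfl⟩
  have h0 : ∑ T ∈ Q.powerset, c T * ∑ χ ∈ killed (ZMod p) (∏ q ∈ T, q), windowSumC χ M N =
      (A : ℂ) := by
    calc ∑ T ∈ Q.powerset, c T * ∑ χ ∈ killed (ZMod p) (∏ q ∈ T, q), windowSumC χ M N
        = ∑ n ∈ Ioc M (M + N), (if NoPrimePower (n : ZMod p) then (1 : ℂ) else 0) := by
          simp only [indicator_eq, windowSumC, mul_sum, sum_div, hc, ← hQ]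
          conv_rhs => rw [sum_comm]
          refine sum_congr rfl fun T _ => ?_
          rw [sum_comm]
          exact sum_congr rfl fun n _ => sum_congr rfl fun χ _ => by ring
      _ = (A : ℂ) := by rw [sum_boole, hA]
  have hT : ∀ T ∈ Q.powerset, 1 ≤ ∏ q ∈ T, q ∧ (∏ q ∈ T, q) ∣ p - 1 := fun T hT => by
    rw [hQ, mem_powerset] at hT
    exact ⟨prod_pos fun q hq => (Nat.prime_of_mem_primeFactors (hT hq)).pos,
      (prod_dvd_prod_of_subset _ _ _ hT).trans (Nat.prod_primeFactors_dvd _)⟩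
  have herr : ∀ T ∈ Q.powerset,
      ‖c T * ∑ χ ∈ (killed (ZMod p) (∏ q ∈ T, q)).erase 1, windowSumC χ M N‖ ≤ E := by
    intro T hT'
    obtain ⟨hd, hdd⟩ := hT T hT'
    have hd' : (0 : ℝ) < ((∏ q ∈ T, q : ℕ) : ℝ) := Nat.cast_pos.2 hd
    rw [norm_mul, hc, norm_div, norm_pow, norm_neg, norm_one, one_pow, Complex.norm_natCast,
      one_div, inv_mul_le_iff₀ hd']
    refine (norm_sum_le_of_le _ fun χ hχ => hE χ (mem_erase.1 hχ).1).trans ?_
    rw [sum_const, nsmul_eq_mul]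
    refine mul_le_mul_of_nonneg_right (Nat.cast_le.2 ((card_le_card (erase_subset _ _)).trans ?_))
      hE0
    rw [card_killed, ZMod.card, Nat.gcd_eq_left hdd]
  have hmain : windowSumC (1 : MulChar (ZMod p) ℂ) M N * ∏ q ∈ Q, (1 - 1 / (q : ℂ)) =
      (A : ℂ) - ∑ T ∈ Q.powerset,
        c T * ∑ χ ∈ (killed (ZMod p) (∏ q ∈ T, q)).erase 1, windowSumC χ M N := by
    rw [eq_sub_iff_add_eq, ← h0]
    simp only [sub_eq_add_neg]
    rw [prod_one_add, mul_sum, ← sum_add_distrib]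
    refine sum_congr rfl fun T _ => ?_
    conv_rhs => rw [← add_sum_erase _ _ one_mem_killed, mul_add, mul_comm (c T)]
    rw [hc]
    simp only
    rw [prod_neg, prod_div_distrib, prod_const_one, ← Nat.cast_prod]
    ring
  have hone : (N : ℝ) / 2 ≤ ‖windowSumC (1 : MulChar (ZMod p) ℂ) M N‖ := by
    have h1 : windowSumC (1 : MulChar (ZMod p) ℂ) M N =
        (((Ioc M (M + N)).filter fun n => ¬ p ∣ n).card : ℂ) := by
      rw [windowSumC, card_filter, Nat.cast_sum]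
      refine sum_congr rfl fun n _ => ?_
      split_ifs with h
      · rw [(ZMod.natCast_eq_zero_iff n p).2 h, MulChar.map_zero, Nat.cast_zero]
      · rw [Nat.cast_one, MulChar.one_apply (Ne.isUnit fun e =>
          h ((ZMod.natCast_eq_zero_iff n p).1 e))]
    rw [h1, Complex.norm_natCast]
    have h2 := card_filter_add_card_filter_not (s := Ioc M (M + N)) (fun n => p ∣ n)
    rw [Nat.card_Ioc, Nat.add_sub_cancel_left] at h2
    have h3 : ((Ioc M (M + N)).filter fun n => p ∣ n).card ≤ N / p + 1 := by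
      rw [← card_range (N / p + 1)]
      refine card_le_card_of_injOn (fun n => (n - M - 1) / p) (fun n hn => ?_) fun x hx y hy h => ?_
      · simp only [mem_coe, mem_filter, mem_Ioc] at hn
        rw [mem_coe, mem_range]
        exact Nat.lt_succ_of_le (Nat.div_le_div_right (by omega))
      · simp only [mem_coe, mem_filter, mem_Ioc] at hx hy
        obtain ⟨⟨hx1, -⟩, i, rfl⟩ := hx
        obtain ⟨⟨hy1, -⟩, j, rfl⟩ := hy
        simp only at h
        have e1 := Nat.div_add_mod (p * i - M - 1) p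
        have e2 := Nat.div_add_mod (p * j - M - 1) p
        have m1 := Nat.mod_lt (p * i - M - 1) (show p > 0 by omega)
        have m2 := Nat.mod_lt (p * j - M - 1) (show p > 0 by omega)
        rw [h] at e1
        rcases lt_trichotomy i j with hij | hij | hij
        · have := Nat.mul_le_mul_left p hij
          rw [Nat.succ_eq_add_one, mul_add, mul_one] at this
          omega
        · rw [hij]
        · have := Nat.mul_le_mul_left p hij
          rw [Nat.succ_eq_add_one, mul_add, mul_one] at this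
          omega
    have h4 : N / p ≤ N / 4 := Nat.div_le_div_left hp (by norm_num)
    have h5 : N ≤ 2 * ((Ioc M (M + N)).filter fun n => ¬ p ∣ n).card := by omega
    have h6 : (N : ℝ) ≤ ((2 * ((Ioc M (M + N)).filter fun n => ¬ p ∣ n).card : ℕ) : ℝ) :=
      Nat.cast_le.2 h5
    push_cast at h6
    linarith
  have hprod : ((2 : ℝ)⁻¹) ^ Q.card ≤ ‖∏ q ∈ Q, (1 - 1 / (q : ℂ))‖ := by
    rw [norm_prod, ← prod_const]
    refine prod_le_prod (fun q _ => by norm_num) fun q hq => ?_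
    have hq2 : (2 : ℝ) ≤ q :=
      Nat.ofNat_le_cast.2 (Nat.prime_of_mem_primeFactors (hQ ▸ hq)).two_le
    rw [show (1 : ℂ) - 1 / (q : ℂ) = (((1 : ℝ) - 1 / (q : ℝ) : ℝ) : ℂ) by push_cast; rfl,
      Complex.norm_real, Real.norm_eq_abs]
    refine le_trans ?_ (le_abs_self _)
    have : 1 / (q : ℝ) ≤ 1 / 2 := by gcongr
    linarith
  have h2 := congrArg norm hmain
  rw [norm_mul] at h2
  have h3 := (mul_le_mul hone hprod (by positivity) (norm_nonneg _)).trans
    (h2.le.trans ((norm_sub_le _ _).trans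
      (add_le_add (Complex.norm_natCast A).le (norm_sum_le_of_le _ herr))))
  rw [sum_const, card_powerset, nsmul_eq_mul, inv_pow, ← div_eq_mul_inv,
    div_le_iff₀ (by positivity)] at h3
  push_cast at h3
  rw [show (4 : ℝ) = 2 * 2 by norm_num, mul_pow]
  linarith

theorem eventually_card_primitiveRoot_ge {ε : ℝ} (hε : 0 < ε) :
    ∀ᶠ p : ℕ in atTop, p.Prime → ∀ M N : ℕ, (p : ℝ) ^ (1 / 4 + ε) ≤ N →
      (N : ℝ) * (p : ℝ) ^ (-ε) ≤
        ((Ioc M (M + N)).filter fun n : ℕ => orderOf (n : ZMod p) = p - 1).card := by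
  obtain ⟨η, hη, hsave⟩ := eventually_norm_windowSumC_le hε
  obtain ⟨θ, hθ⟩ : ∃ θ, θ = min (η / 2) (ε / 2) := ⟨_, rfl⟩
  have hθ0 : 0 < θ := hθ ▸ lt_min (half_pos hη) (half_pos hε)
  obtain ⟨C, hC0, hC⟩ := exists_four_pow_card_primeFactors_le hθ0
  have hlim : ∀ a : ℝ, 0 < a → ∀ B : ℝ, ∀ᶠ p : ℕ in atTop, B ≤ (p : ℝ) ^ a := fun a ha B =>
    ((tendsto_rpow_atTop ha).comp tendsto_natCast_atTop_atTop).eventually_ge_atTop B
  filter_upwards [hsave, hlim _ (half_pos hη) (4 * C), hlim _ (half_pos hε) (4 * C),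
    hlim (1 / 4 + ε) (by positivity) 4, eventually_ge_atTop 4] with p hp hp1 hp2 hp3 hp4 hprime M N
      hN
  have := Fact.mk hprime
  have hp0 : (0 : ℝ) < p := Nat.cast_pos.2 (by omega)
  have hN4 : 4 ≤ N := by exact_mod_cast hp3.trans hN
  classical
  have h := card_noPrimePower_ge (M := M) (E := N * (p : ℝ) ^ (-η)) hp4 hN4 (by positivity)
    (fun χ hχ => hp χ hχ M N hN)
  obtain ⟨ω, hω⟩ : ∃ ω, ω = (p - 1).primeFactors.card := ⟨_, rfl⟩
  obtain ⟨A, hA⟩ : ∃ A : ℕ, A =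
      ((Ioc M (M + N)).filter fun n : ℕ => NoPrimePower (n : ZMod p)).card := ⟨_, rfl⟩
  rw [← hω, ← hA] at h
  have hAle : (A : ℝ) ≤ ((Ioc M (M + N)).filter fun n : ℕ => orderOf (n : ZMod p) = p - 1).card :=
    Nat.cast_le.2 (hA ▸ card_le_card fun n hn => mem_filter.2
      ⟨(mem_filter.1 hn).1, orderOf_eq_of_noPrimePower (mem_filter.1 hn).2⟩)
  refine le_trans ?_ hAle
  have h4 : ∀ x, θ ≤ x → (4 : ℝ) ^ ω ≤ C * (p : ℝ) ^ x := fun x hx =>
    (hω ▸ hC (p - 1) (by omega)).trans (mul_le_mul_of_nonneg_left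
      ((Real.rpow_le_rpow (Nat.cast_nonneg _) (Nat.cast_le.2 (Nat.sub_le p 1)) hθ0.le).trans
        (Real.rpow_le_rpow_of_exponent_le (Nat.one_le_cast.2 (by omega)) hx)) hC0.le)
  have hE : (4 : ℝ) ^ ω * (N * (p : ℝ) ^ (-η)) ≤ N / 4 := by
    refine (mul_le_mul_of_nonneg_right (h4 (η / 2) (hθ ▸ min_le_left _ _)) (by positivity)).trans ?_
    rw [show -η = -(η / 2) + -(η / 2) by ring, Real.rpow_add hp0, Real.rpow_neg hp0.le]
    have hpos := Real.rpow_pos_of_pos hp0 (η / 2)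
    generalize hT : (p : ℝ) ^ (η / 2) = T at hp1 hpos
    rw [show C * T * ((N : ℝ) * (T⁻¹ * T⁻¹)) = C * N / T by field_simp, div_le_iff₀ hpos]
    have := mul_le_mul_of_nonneg_left hp1 (Nat.cast_nonneg (α := ℝ) N)
    linarith
  have h2 : (2 : ℝ) ^ ω ≤ C * (p : ℝ) ^ (ε / 2) :=
    (pow_le_pow_left₀ zero_le_two (by norm_num) ω).trans (h4 _ (hθ ▸ min_le_right _ _))
  have h5 : (N : ℝ) / 4 ≤ C * (p : ℝ) ^ (ε / 2) * A := by
    have := mul_le_mul_of_nonneg_right h2 (Nat.cast_nonneg (α := ℝ) A)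
    linarith
  rw [show -ε = -(ε / 2) + -(ε / 2) by ring, Real.rpow_add hp0, Real.rpow_neg hp0.le]
  have hpos := Real.rpow_pos_of_pos hp0 (ε / 2)
  generalize hT : (p : ℝ) ^ (ε / 2) = T at hp2 h5 hpos
  rw [← mul_inv, ← div_eq_mul_inv, div_le_iff₀ (by positivity)]
  have := mul_le_mul_of_nonneg_right hp2 (mul_nonneg hpos.le (Nat.cast_nonneg (α := ℝ) A))
  nlinarith

end FA.PrimitiveRootSquare
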