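import Fermat.Agent.PrimitiveRootSquare.Lift
import Fermat.Agent.Forms3.RepresentationBound

/-!
# Few vanishing Fermat quotients

Products of `k` numbers below `N`, `N ^ k < p²`, with `n ^ (p - 1) ≡ 1 (mod p²)` are among the
`p - 1` roots, and each root has few such representations by the divisor bound.
-/

set_option autoImplicit false

noncomputable section

namespace FA.PrimitiveRootSquare

open Finset

/-- The `n ≤ N` with `n ^ (p - 1) ≡ 1 (mod p²)`. -/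
def fixedSet (p N : ℕ) : Finset ℕ :=
  (Icc 1 N).filter fun n => (n : ZMod (p ^ 2)) ^ (p - 1) = 1

theorem mem_fixedSet {p N n : ℕ} :
    n ∈ fixedSet p N ↔ (1 ≤ n ∧ n ≤ N) ∧ (n : ZMod (p ^ 2)) ^ (p - 1) = 1 := by
  rw [fixedSet, mem_filter, mem_Icc]

theorem card_fixed_lt_sq_le {p : ℕ} (hp : p.Prime) {T : Finset ℕ}
    (hT : ∀ m ∈ T, m < p ^ 2 ∧ (m : ZMod (p ^ 2)) ^ (p - 1) = 1) : T.card ≤ p - 1 := by
  have : NeZero (p ^ 2) := ⟨pow_ne_zero _ hp.ne_zero⟩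
  refine le_trans (card_le_card_of_injOn (fun m : ℕ => (m : ZMod (p ^ 2)))
    (fun m hm => ?_) fun a ha b hb h => ?_) (card_roots_sq_le hp)
  · exact mem_filter.2 ⟨mem_univ _, (hT m (mem_coe.1 hm)).2⟩
  · have h' := congrArg ZMod.val h
    rwa [ZMod.val_natCast_of_lt (hT a (mem_coe.1 ha)).1,
      ZMod.val_natCast_of_lt (hT b (mem_coe.1 hb)).1] at h'

theorem exists_card_fixedSet_le {k : ℕ} (hk : 1 ≤ k) {δ : ℝ} (hδ : 0 < δ) :
    ∃ C : ℝ, ∀ p N : ℕ, p.Prime → N ^ k < p ^ 2 →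
      ((fixedSet p N).card : ℝ) ≤ C * (p : ℝ) ^ (1 / (k : ℝ) + δ) := by
  obtain ⟨C, hC1, hC⟩ := FA.RepresentationBound.card_divisors_isBigO (δ / 2) (half_pos hδ)
  refine ⟨C, fun p N hp hN => ?_⟩
  obtain ⟨S, hS⟩ : ∃ S, S = fixedSet p N := ⟨_, rfl⟩
  rw [← hS]
  have hk0 : (0 : ℝ) < k := Nat.cast_pos.2 hk
  have hp0 : (0 : ℝ) < p := Nat.cast_pos.2 hp.pos
  have hmem : ∀ n ∈ S, (1 ≤ n ∧ n ≤ N) ∧ (n : ZMod (p ^ 2)) ^ (p - 1) = 1 := fun n hn =>
    mem_fixedSet.1 (hS ▸ hn)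
  obtain ⟨F, hF⟩ : ∃ F, F = Fintype.piFinset fun _ : Fin k => S := ⟨_, rfl⟩
  have hFS : ∀ f ∈ F, ∀ i, f i ∈ S := fun f hf i => Fintype.mem_piFinset.1 (hF ▸ hf) i
  have himg : ∀ m ∈ F.image fun f => ∏ i, f i,
      0 < m ∧ m < p ^ 2 ∧ (m : ZMod (p ^ 2)) ^ (p - 1) = 1 := by
    intro m hm
    obtain ⟨f, hf, rfl⟩ := mem_image.1 hm
    have h := fun i => hmem _ (hFS f hf i)
    refine ⟨prod_pos fun i _ => (h i).1.1, lt_of_le_of_lt ?_ hN, ?_⟩
    · refine (prod_le_pow_card univ f N fun i _ => (h i).1.2).trans (le_of_eq ?_)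
      rw [card_univ, Fintype.card_fin]
    · rw [Nat.cast_prod, ← prod_pow]
      exact prod_eq_one fun i _ => (h i).2
  have hB : ∀ m ∈ F.image fun f => ∏ i, f i,
      ((F.filter fun f => ∏ i, f i = m).card : ℝ) ≤ (C * (p : ℝ) ^ δ) ^ k := by
    intro m hm
    obtain ⟨hm0, hmp, -⟩ := himg m hm
    have h1 : (F.filter fun f => ∏ i, f i = m).card ≤ m.divisors.card ^ k := by
      refine (card_le_card (t := Fintype.piFinset fun _ : Fin k => m.divisors) fun f hf => ?_).trans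
        (le_of_eq (by simp))
      obtain ⟨-, hfm⟩ := mem_filter.1 hf
      exact Fintype.mem_piFinset.2 fun i => Nat.mem_divisors.2
        ⟨hfm ▸ dvd_prod_of_mem f (mem_univ i), hm0.ne'⟩
    refine (Nat.cast_le.2 h1).trans ?_
    rw [Nat.cast_pow]
    refine pow_le_pow_left₀ (Nat.cast_nonneg _) ((hC m hm0.ne').trans ?_) _
    refine mul_le_mul_of_nonneg_left ((Real.rpow_le_rpow (Nat.cast_nonneg _)
      (Nat.cast_le.2 hmp.le) (half_pos hδ).le).trans (le_of_eq ?_)) (zero_le_one.trans hC1)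
    rw [Nat.cast_pow, ← Real.rpow_natCast_mul hp0.le, Nat.cast_two, mul_div_cancel₀ _ two_ne_zero]
  refine le_of_pow_le_pow_left₀ (by omega : k ≠ 0) (by positivity) ?_
  have h2 : (S.card : ℝ) ^ k = ∑ m ∈ F.image fun f => ∏ i, f i,
      ((F.filter fun f => ∏ i, f i = m).card : ℝ) := by
    rw [← Nat.cast_sum, ← card_eq_sum_card_image, hF, Fintype.card_piFinset, prod_const,
      card_univ, Fintype.card_fin, Nat.cast_pow]
  rw [h2]
  refine (sum_le_card_nsmul _ _ _ hB).trans ?_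
  rw [nsmul_eq_mul]
  have h3 : ((F.image fun f => ∏ i, f i).card : ℝ) ≤ p :=
    Nat.cast_le.2 ((card_fixed_lt_sq_le hp fun m hm => (himg m hm).2).trans (Nat.sub_le p 1))
  refine (mul_le_mul_of_nonneg_right h3 (by positivity)).trans (le_of_eq ?_)
  rw [Real.rpow_add hp0, mul_pow C, mul_pow C ((p : ℝ) ^ (1 / (k : ℝ)) * (p : ℝ) ^ δ),
    mul_pow ((p : ℝ) ^ (1 / (k : ℝ))), ← Real.rpow_natCast ((p : ℝ) ^ (1 / (k : ℝ))),
    ← Real.rpow_mul hp0.le, one_div_mul_cancel hk0.ne', Real.rpow_one]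
  ring

end FA.PrimitiveRootSquare
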