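import Fermat.Agent.PrimitiveRootSquare.FewFixed
import Mathlib.NumberTheory.Chebyshev
import Mathlib.Analysis.SpecialFunctions.Log.Base
import Mathlib.Analysis.SpecialFunctions.Pow.Asymptotics

/-!
# Lenstra's small prime with nonzero Fermat quotient

If every prime `q ≤ 4 log² p` had `q ^ (p - 1) ≡ 1 (mod p²)`, so would the products of `k` of them;
these are below `p²` for `k ≤ 2 log p / log (4 log² p)`, and there are more than `p` of them.
-/

set_option autoImplicit false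

noncomputable section

namespace FA.PrimitiveRootSquare

open Finset Filter
open scoped Nat.Prime Nat

theorem log_factorial_le : ∀ k : ℕ, 1 ≤ k →
    Real.log (k ! : ℕ) ≤ ((k : ℝ) + 1) * Real.log k - ((k : ℝ) - 1)
  | 0, h => absurd h (by norm_num)
  | 1, _ => by simp
  | k + 2, _ => by
    have ih := log_factorial_le (k + 1) (by omega)
    have hk : (0 : ℝ) < ((k + 1 : ℕ) : ℝ) := Nat.cast_pos.2 (by omega)
    have hk2 : (0 : ℝ) < ((k + 2 : ℕ) : ℝ) := Nat.cast_pos.2 (by omega)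
    have h := Real.one_sub_inv_le_log_of_pos (div_pos hk2 hk)
    rw [inv_div, Real.log_div hk2.ne' hk.ne', one_sub_div hk2.ne', div_le_iff₀ hk2] at h
    rw [show k + 2 = (k + 1) + 1 by omega, Nat.factorial_succ, Nat.cast_mul,
      Real.log_mul (Nat.cast_ne_zero.2 (by omega)) (Nat.cast_ne_zero.2 (Nat.factorial_ne_zero _))]
    push_cast at ih h hk hk2 ⊢
    rw [show (k : ℝ) + 1 + 1 = k + 2 by ring] at ih ⊢
    linarith

theorem exists_prime_pow_ne {p y k : ℕ} (hp : p.Prime) (hk : y ^ k < p ^ 2)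
    (hcard : p ≤ (π y).choose k) :
    ∃ q : ℕ, q.Prime ∧ q ≤ y ∧ (q : ZMod (p ^ 2)) ^ (p - 1) ≠ 1 := by
  by_contra! hno
  have hP : ∀ q ∈ Nat.primesLE y, q.Prime ∧ q ≤ y := fun q hq =>
    ⟨Nat.prime_of_mem_primesLE hq, Nat.le_of_mem_primesLE hq⟩
  have hT : ∀ m ∈ ((Nat.primesLE y).powersetCard k).image fun T => ∏ q ∈ T, q,
      m < p ^ 2 ∧ (m : ZMod (p ^ 2)) ^ (p - 1) = 1 := by
    intro m hm
    obtain ⟨T, hT, rfl⟩ := mem_image.1 hm
    rw [mem_powersetCard] at hT
    refine ⟨lt_of_le_of_lt ((prod_le_pow_card T (fun q => q) y fun q hq =>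
      (hP q (hT.1 hq)).2).trans (le_of_eq (by rw [hT.2]))) hk, ?_⟩
    rw [Nat.cast_prod, ← prod_pow]
    exact prod_eq_one fun q hq => hno q (hP q (hT.1 hq)).1 (hP q (hT.1 hq)).2
  have h1 : (((Nat.primesLE y).powersetCard k).image fun T => ∏ q ∈ T, q).card =
      (π y).choose k := by
    rw [card_image_of_injOn, card_powersetCard, Nat.primesLE_card_eq_primeCounting]
    intro A hA B hB h
    simp only [mem_coe, mem_powersetCard] at hA hB
    simp only at h
    rw [← Nat.primeFactors_prod fun q hq => (hP q (hA.1 hq)).1, h,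
      Nat.primeFactors_prod fun q hq => (hP q (hB.1 hq)).1]
  have h2 := (card_fixed_lt_sq_le hp hT).trans_lt (Nat.sub_lt hp.pos one_pos)
  omega

theorem eventually_log_sq_le : ∀ᶠ L : ℝ in atTop,
    (Real.log (4 * L ^ 2)) ^ 2 ≤ L / 100 := by
  have h1 := (isLittleO_log_rpow_rpow_atTop (2 : ℝ) one_pos).bound
    (show (0 : ℝ) < 1 / 10000 by norm_num)
  filter_upwards [h1, eventually_ge_atTop 4] with L hL hL4
  rw [Real.rpow_one, show (2 : ℝ) = ((2 : ℕ) : ℝ) by norm_num, Real.rpow_natCast,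
    Real.norm_of_nonneg (sq_nonneg _), Real.norm_of_nonneg (by linarith)] at hL
  have h0 : 0 ≤ Real.log L := Real.log_nonneg (by linarith)
  have h4 : Real.log 4 ≤ Real.log L := Real.log_le_log (by norm_num) hL4
  have h5 : 0 ≤ Real.log 4 := Real.log_nonneg (by norm_num)
  rw [Real.log_mul (by norm_num) (by positivity), Real.log_pow, Nat.cast_two]
  nlinarith

theorem eventually_exists_prime_pow_ne : ∀ᶠ p : ℕ in atTop, p.Prime →
    ∃ q : ℕ, q.Prime ∧ (q : ℝ) ≤ 4 * Real.log p ^ 2 ∧ (q : ZMod (p ^ 2)) ^ (p - 1) ≠ 1 := by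
  have hL := (Real.tendsto_log_atTop.comp tendsto_natCast_atTop_atTop).eventually
    (eventually_log_sq_le.and (eventually_ge_atTop 100))
  filter_upwards [hL] with p ⟨hsmall, hL100⟩ hp
  simp only [Function.comp_apply] at hsmall hL100
  obtain ⟨L, hLd⟩ : ∃ L, L = Real.log p := ⟨_, rfl⟩
  rw [← hLd] at hsmall hL100
  rw [← hLd]
  obtain ⟨ℓ, hℓ⟩ : ∃ ℓ, ℓ = Real.log (4 * L ^ 2) := ⟨_, rfl⟩
  rw [← hℓ] at hsmall
  have hℓ' : ℓ = 2 * Real.log 2 + 2 * Real.log L := by
    rw [hℓ, show 4 * L ^ 2 = (2 * L) ^ 2 by ring, Real.log_pow,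
      Real.log_mul two_ne_zero (by linarith)]
    push_cast
    ring
  have hl2 := Real.log_two_gt_d9
  have hl2' := Real.log_two_lt_d9
  have hlogL : 1 ≤ Real.log L := by
    rw [Real.le_log_iff_exp_le (by linarith)]
    linarith [Real.exp_one_lt_d9]
  have hℓ1 : 1 ≤ ℓ := by linarith
  obtain ⟨y, hy⟩ : ∃ y, y = ⌊4 * L ^ 2⌋₊ := ⟨_, rfl⟩
  have hyle : (y : ℝ) ≤ 4 * L ^ 2 := hy ▸ Nat.floor_le (by positivity)
  have hylt : 4 * L ^ 2 < (y : ℝ) + 1 := hy ▸ Nat.lt_floor_add_one _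
  have hy1 : (1 : ℝ) < y := by nlinarith
  have hlogy : Real.log y ≤ ℓ := hℓ ▸ Real.log_le_log (by linarith) hyle
  -- many primes up to `y`
  have hpi : 12 / 5 * L ^ 2 ≤ (π y : ℕ) * ℓ := by
    have h := Chebyshev.pi_ge y
    rw [div_le_iff₀ (Real.log_pos hy1)] at h
    have h1 : Real.log ((y : ℝ) + 1) ≤ ℓ + 1 := by
      have h2 : Real.log ((y : ℝ) + 1) ≤ Real.log (2 * (4 * L ^ 2)) :=
        Real.log_le_log (by linarith) (by nlinarith)
      rw [Real.log_mul two_ne_zero (by positivity), ← hℓ] at h2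
      linarith
    have h3 := mul_le_mul_of_nonneg_left hlogy (Nat.cast_nonneg (α := ℝ) (π y))
    nlinarith
  obtain ⟨k, hkd⟩ : ∃ k, k + 1 = ⌈2 * L / ℓ⌉₊ := ⟨⌈2 * L / ℓ⌉₊ - 1, by
    have : 0 < ⌈2 * L / ℓ⌉₊ := Nat.ceil_pos.2 (by positivity)
    omega⟩
  have hkhi : (k : ℝ) * ℓ < 2 * L := by
    have h : k < ⌈2 * L / ℓ⌉₊ := by omega
    rw [Nat.lt_ceil, lt_div_iff₀ (by linarith)] at h
    exact h
  have hklo : 2 * L ≤ ((k : ℝ) + 1) * ℓ := by
    have h := Nat.le_ceil (2 * L / ℓ)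
    rw [← hkd, Nat.cast_add, Nat.cast_one, div_le_iff₀ (by linarith)] at h
    exact h
  have hk1 : 1 ≤ k := by
    by_contra h0
    rw [show k = 0 by omega, Nat.cast_zero, zero_add, one_mul] at hklo
    nlinarith
  have hkpos : (1 : ℝ) ≤ k := Nat.one_le_cast.2 hk1
  suffices h : y ^ k < p ^ 2 ∧ p ≤ (π y).choose k by
    obtain ⟨q, hq, hqy, hne⟩ := exists_prime_pow_ne hp h.1 h.2
    exact ⟨q, hq, (Nat.cast_le.2 hqy).trans hyle, hne⟩
  refine ⟨?_, ?_⟩
  · refine Nat.cast_lt (α := ℝ).1 ?_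
    have hp0 : (0 : ℝ) < p := Nat.cast_pos.2 hp.pos
    push_cast
    rw [← Real.log_lt_log_iff (by positivity) (by positivity), Real.log_pow, Real.log_pow, ← hLd,
      Nat.cast_two]
    exact (mul_le_mul_of_nonneg_left hlogy (Nat.cast_nonneg k)).trans_lt hkhi
  · -- more than `p` products
    have hkL : (k : ℝ) * L + k ≤ (π y : ℕ) := by
      refine le_of_mul_le_mul_right ?_ (show (0 : ℝ) < ℓ by linarith)
      have := mul_le_mul_of_nonneg_right hkhi.le (show (0 : ℝ) ≤ L + 1 by linarith)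
      nlinarith
    have hkm : k ≤ π y := by
      refine Nat.cast_le (α := ℝ).1 (le_trans ?_ hkL)
      nlinarith
    have hC : ((k : ℝ) * L) ^ k ≤ ((k ! : ℕ) : ℝ) * ((π y).choose k : ℕ) := by
      rw [← Nat.cast_mul, ← Nat.descFactorial_eq_factorial_mul_choose]
      refine le_trans ?_ (Nat.cast_le.2 (Nat.pow_sub_le_descFactorial (π y) k))
      rw [Nat.cast_pow, Nat.cast_sub (by omega)]
      refine pow_le_pow_left₀ (by positivity) ?_ k
      push_cast
      linarith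
    have hchoose : (0 : ℝ) < ((π y).choose k : ℕ) := Nat.cast_pos.2 (Nat.choose_pos hkm)
    have hlog := Real.log_le_log (by positivity) hC
    rw [Real.log_pow, Real.log_mul (by positivity) (by linarith),
      Real.log_mul (Nat.cast_ne_zero.2 (Nat.factorial_ne_zero k)) hchoose.ne'] at hlog
    have hfac := log_factorial_le k hk1
    have hlogk : Real.log k ≤ Real.log L + 1 := by
      have : (k : ℝ) ≤ 2 * L := by nlinarith
      have h := Real.log_le_log (by linarith) this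
      rw [Real.log_mul two_ne_zero (by linarith)] at h
      linarith
    refine Nat.cast_le (α := ℝ).1 ?_
    rw [← Real.log_le_log_iff (Nat.cast_pos.2 hp.pos) hchoose, ← hLd]
    have hgoal : L + (Real.log L + 2) ≤ (k : ℝ) * (Real.log L + 1) := by
      refine le_of_mul_le_mul_right ?_ (show (0 : ℝ) < ℓ by linarith)
      have h1 := mul_le_mul_of_nonneg_right hklo (show (0 : ℝ) ≤ Real.log L + 1 by linarith)
      have h2 : (Real.log L + 2) * ℓ + (Real.log L + 1) * ℓ ≤ 3 * ℓ ^ 2 := by nlinarith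
      nlinarith
    linarith

end FA.PrimitiveRootSquare
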