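import Mathlib.RingTheory.ZMod.UnitsCyclic
import Mathlib.Tactic.Ring

/-!
# Lifting primitive roots to prime powers

A primitive root `g` modulo an odd prime `p` with `g ^ (p - 1) ≢ 1 (mod p²)` generates modulo every
power of `p`; and there are at most `p - 1` solutions of `x ^ (p - 1) = 1` modulo `p²`.
-/

set_option autoImplicit false

noncomputable section

namespace FA.PrimitiveRootSquare

theorem orderOf_prime_pow {p g : ℕ} (hp : p.Prime) (hp2 : p ≠ 2)
    (h1 : orderOf (g : ZMod p) = p - 1) (h2 : (g : ZMod (p ^ 2)) ^ (p - 1) ≠ 1) (n : ℕ) :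
    orderOf (g : ZMod (p ^ (n + 1))) = p ^ n * (p - 1) := by
  have := Fact.mk hp
  have hp1 : p - 1 ≠ 0 := by have := hp.two_le; omega
  have hdvd : (p : ℤ) ∣ (g : ℤ) ^ (p - 1) - 1 := by
    rw [← ZMod.intCast_zmod_eq_zero_iff_dvd]
    have h := pow_orderOf_eq_one (g : ZMod p)
    rw [h1] at h
    push_cast
    rw [h, sub_self]
  obtain ⟨a, ha⟩ := hdvd
  have hna : ¬ (p : ℤ) ∣ a := by
    rintro ⟨b, rfl⟩
    refine h2 ?_
    have h : (((g : ℤ) ^ (p - 1) - 1 : ℤ) : ZMod (p ^ 2)) = 0 := by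
      rw [ZMod.intCast_zmod_eq_zero_iff_dvd, ha]
      exact ⟨b, by push_cast; ring⟩
    push_cast at h
    exact sub_eq_zero.1 h
  have hx : (g : ZMod (p ^ (n + 1))) ^ (p - 1) = 1 + p * a := by
    have h := congrArg (Int.cast : ℤ → ZMod (p ^ (n + 1))) ha
    push_cast at h
    rw [sub_eq_iff_eq_add'] at h
    exact h
  have hpow := ZMod.orderOf_one_add_mul_prime hp hp2 a hna n
  rw [← hx, orderOf_pow' _ hp1] at hpow
  have hd : p - 1 ∣ orderOf (g : ZMod (p ^ (n + 1))) := by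
    have h := orderOf_map_dvd
      (ZMod.castHom (dvd_pow_self p (Nat.succ_ne_zero n)) (ZMod p)).toMonoidHom
      (g : ZMod (p ^ (n + 1)))
    simp only [RingHom.toMonoidHom_eq_coe, MonoidHom.coe_coe, map_natCast] at h
    rwa [h1] at h
  rw [Nat.gcd_eq_right hd] at hpow
  rw [← hpow, Nat.div_mul_cancel hd]

theorem card_roots_sq_le {p : ℕ} (hp : p.Prime) [NeZero (p ^ 2)] :
    (Finset.univ.filter fun x : ZMod (p ^ 2) => x ^ (p - 1) = 1).card ≤ p - 1 := by
  rcases eq_or_ne p 2 with rfl | hp2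
  · rw [show (2 : ℕ) - 1 = 1 from rfl, Finset.card_le_one]
    intro a ha b hb
    rw [Finset.mem_filter, pow_one] at ha hb
    rw [ha.2, hb.2]
  have hp1 : 0 < p - 1 := by have := hp.two_le; omega
  have := ZMod.isCyclic_units_of_prime_pow p hp hp2 2
  refine le_trans ?_ (IsCyclic.card_pow_eq_one_le (α := (ZMod (p ^ 2))ˣ) hp1)
  refine le_trans (Finset.card_le_card fun x hx => ?_)
    (Finset.card_image_le (f := fun u : (ZMod (p ^ 2))ˣ => (u : ZMod (p ^ 2))))
  rw [Finset.mem_filter] at hx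
  have hu := IsUnit.of_pow_eq_one hx.2 hp1.ne'
  exact Finset.mem_image.2 ⟨hu.unit, Finset.mem_filter.2 ⟨Finset.mem_univ _,
    Units.ext (by rw [Units.val_pow_eq_pow_val, IsUnit.unit_spec]; exact hx.2)⟩, hu.unit_spec⟩

end FA.PrimitiveRootSquare
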