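import Fermat.Agent.PrimitiveRootSquare.FewFixed
import Fermat.Agent.PrimitiveRootSquare.Count

/-!
# The least primitive root modulo `p²`

Cohen, Odoni and Stothers: for large `p` some `g ≤ p ^ (1/4 + ε)` is a primitive root modulo every
power of `p`; there are more primitive roots below the bound than vanishing Fermat quotients.
-/

set_option autoImplicit false

noncomputable section

namespace FA.PrimitiveRootSquare

open Finset Filter

theorem eventually_exists_primitiveRoot_pow {ε : ℝ} (hε : 0 < ε) :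
    ∀ᶠ p : ℕ in atTop, p.Prime → ∃ g : ℕ, (g : ℝ) ≤ (p : ℝ) ^ (1 / 4 + ε) ∧
      ∀ k : ℕ, orderOf (g : ZMod (p ^ (k + 1))) = p ^ k * (p - 1) := by
  obtain ⟨e, he⟩ : ∃ e, e = min ε (1 / 100) := ⟨_, rfl⟩
  have he0 : 0 < e := he ▸ lt_min hε (by norm_num)
  have heε : e ≤ ε := he ▸ min_le_left _ _
  have he1 : e ≤ 1 / 100 := he ▸ min_le_right _ _
  obtain ⟨C, hC⟩ := exists_card_fixedSet_le (k := 5) (by norm_num) (δ := 1 / 100) (by norm_num)
  have hlim : ∀ a : ℝ, 0 < a → ∀ B : ℝ, ∀ᶠ p : ℕ in atTop, B < (p : ℝ) ^ a := fun a ha B =>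
    ((tendsto_rpow_atTop ha).comp tendsto_natCast_atTop_atTop).eventually_gt_atTop B
  filter_upwards [eventually_card_primitiveRoot_ge (half_pos he0), hlim _ (half_pos he0) 2,
    hlim (1 / 25) (by norm_num) C, eventually_ge_atTop 3] with p hp hp1 hp2 hp3 hprime
  have hp0 : (0 : ℝ) < p := Nat.cast_pos.2 (by omega)
  have hpone : (1 : ℝ) < p := Nat.one_lt_cast.2 (by omega)
  obtain ⟨N, hN⟩ : ∃ N, N = ⌊(p : ℝ) ^ (1 / 4 + e)⌋₊ := ⟨_, rfl⟩
  have hNle : (N : ℝ) ≤ (p : ℝ) ^ (1 / 4 + e) := hN ▸ Nat.floor_le (by positivity)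
  have hNge : (p : ℝ) ^ (1 / 4 + e / 2) ≤ N := by
    have h := Nat.lt_floor_add_one ((p : ℝ) ^ (1 / 4 + e))
    rw [← hN, show (1 : ℝ) / 4 + e = (1 / 4 + e / 2) + e / 2 by ring, Real.rpow_add hp0] at h
    have h1 : 1 ≤ (p : ℝ) ^ (1 / 4 + e / 2) := Real.one_le_rpow hpone.le (by positivity)
    have := mul_le_mul_of_nonneg_left hp1.le (zero_le_one.trans h1)
    linarith
  have hN5 : N ^ 5 < p ^ 2 := by
    refine Nat.cast_lt (α := ℝ).1 ?_
    push_cast
    refine (pow_le_pow_left₀ (Nat.cast_nonneg _) hNle 5).trans_lt ?_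
    rw [← Real.rpow_natCast ((p : ℝ) ^ (1 / 4 + e)), ← Real.rpow_mul hp0.le,
      ← Real.rpow_natCast (p : ℝ) 2]
    exact Real.rpow_lt_rpow_of_exponent_lt hpone (by push_cast; linarith)
  have hA := hp hprime 0 N hNge
  have hS := hC p N hprime hN5
  rw [zero_add] at hA
  have hA' : (p : ℝ) ^ (1 / 4 : ℝ) ≤
      ((Ioc 0 N).filter fun n : ℕ => orderOf (n : ZMod p) = p - 1).card := by
    refine le_trans (le_of_eq ?_) ((mul_le_mul_of_nonneg_right hNge (by positivity)).trans hA)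
    rw [← Real.rpow_add hp0, add_neg_cancel_right]
  have hlt : (fixedSet p N).card <
      ((Ioc 0 N).filter fun n : ℕ => orderOf (n : ZMod p) = p - 1).card := by
    refine Nat.cast_lt (α := ℝ).1 (hS.trans_lt (lt_of_lt_of_le ?_ hA'))
    rw [show (1 / 4 : ℝ) = 1 / 25 + (1 / ((5 : ℕ) : ℝ) + 1 / 100) by norm_num,
      Real.rpow_add hp0 (1 / 25)]
    exact mul_lt_mul_of_pos_right hp2 (by positivity)
  obtain ⟨g, hg, hgS⟩ := exists_mem_notMem_of_card_lt_card hlt
  rw [mem_filter, mem_Ioc] at hg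
  refine ⟨g, ((Nat.cast_le.2 hg.1.2).trans hNle).trans
    (Real.rpow_le_rpow_of_exponent_le hpone.le (by linarith)), fun k =>
    orderOf_prime_pow hprime (by omega) hg.2
      (fun h => hgS (mem_fixedSet.2 ⟨⟨hg.1.1, hg.1.2⟩, h⟩)) k⟩

end FA.PrimitiveRootSquare
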